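import Fermat.Agent.S52.Frob.Natural
import Fermat.Agent.S52.Basic

/-!
# S52 piece B, package B5: transfer of `φ² - aφ + ℓ = 0` from the generic point to `E(Fbar ℓ)`

Input: `hgen : psiPt ℓ A B (Lg ℓ) (pgen ℓ A B) = 0` (package B4).
Output: the frozen interface statement `frobenius_relation` (as `frobenius_relation_of_generic`).

Method: every point of `E(Lg)` with transcendental abscissa is the image of `± pgen` under a
`ZMod ℓ`-algebra endomorphism of `Lg`; a point `P` defined over `Fbar ℓ ⊆ Lg` is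
`(P + pgen) - pgen`, a difference of two such points.
-/

set_option autoImplicit false

open WeierstrassCurve WeierstrassCurve.Affine

namespace Fermat.Agent.S52.Frob.T8525

variable (ℓ : ℕ) [Fact ℓ.Prime] (A B : ZMod ℓ)

section curve

variable {L : Type*} [Field L] [Algebra (ZMod ℓ) L]

lemma equation_iff_sw (x y : L) : ((sw ℓ A B)⁄L).Equation x y ↔
    y ^ 2 = x ^ 3 + algebraMap (ZMod ℓ) L A * x + algebraMap (ZMod ℓ) L B := by
  rw [Affine.equation_iff]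
  simp [sw]

lemma a₁_sw : ((sw ℓ A B)⁄L).a₁ = 0 := by simp [sw]

lemma a₃_sw : ((sw ℓ A B)⁄L).a₃ = 0 := by simp [sw]

lemma nonsingular_of_ne_zero (h2 : (2 : L) ≠ 0) {x y : L} (he : ((sw ℓ A B)⁄L).Equation x y)
    (hy : y ≠ 0) : ((sw ℓ A B)⁄L).Nonsingular x y := by
  rw [Affine.nonsingular_iff]
  refine ⟨he, Or.inr ?_⟩
  rw [a₁_sw, a₃_sw]
  intro h
  have : (2 : L) * y = 0 := by linear_combination h
  rcases mul_eq_zero.mp this with h' | h'
  · exact h2 h'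
  · exact hy h'

lemma negY_sw (x y : L) : ((sw ℓ A B)⁄L).negY x y = -y := by
  simp [Affine.negY, sw]

lemma two_ne_zero_of (hℓ : 5 ≤ ℓ) : (2 : L) ≠ 0 := by
  have h2 : (2 : ZMod ℓ) ≠ 0 := by
    have h : ((2 : ℕ) : ZMod ℓ) ≠ 0 := by
      rw [Ne, ZMod.natCast_eq_zero_iff]
      intro hd
      have := Nat.le_of_dvd (by norm_num) hd
      omega
    exact_mod_cast h
  have e : (2 : L) = algebraMap (ZMod ℓ) L 2 := (map_ofNat _ 2).symm
  rw [e]
  exact (map_ne_zero_iff _ (algebraMap (ZMod ℓ) L).injective).mpr h2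

end curve

section generic

open Polynomial IntermediateField

lemma gx_transcendental : Transcendental (ZMod ℓ) (gx ℓ) := by
  unfold gx
  rw [transcendental_algebraMap_iff (algebraMap (Kx ℓ) (Lg ℓ)).injective]
  exact RatFunc.transcendental_X

lemma gf_ne_zero : gf ℓ A B ≠ 0 := by
  intro h
  apply gx_transcendental ℓ
  refine ⟨X ^ 3 + C A * X + C B, ?_, ?_⟩
  · intro h0
    have := congrArg (fun p : (ZMod ℓ)[X] => p.coeff 3) h0
    simp at this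
  · simpa [gf, Algebra.smul_def] using h

lemma gy_ne_zero : gy ℓ A B ≠ 0 := by
  intro h
  have := gy_sq ℓ A B
  rw [h] at this
  exact gf_ne_zero ℓ A B (by simpa using this.symm)

lemma gen_nonsingular (hℓ : 5 ≤ ℓ) :
    ((sw ℓ A B)⁄(Lg ℓ)).Nonsingular (gx ℓ) (gy ℓ A B) :=
  nonsingular_of_ne_zero ℓ A B (two_ne_zero_of ℓ hℓ)
    ((equation_iff_sw ℓ A B _ _).mpr (by rw [gy_sq, gf])) (gy_ne_zero ℓ A B)

lemma pgen_eq (hℓ : 5 ≤ ℓ) :
    pgen ℓ A B = Point.some _ _ (gen_nonsingular ℓ A B hℓ) := by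
  unfold pgen
  rw [dif_pos (gen_nonsingular ℓ A B hℓ)]

/-- Substitution: a transcendental element of `Lg` is the image of the generic abscissa under a
`ZMod ℓ`-algebra endomorphism of `Lg`. -/
theorem exists_theta {X : Lg ℓ} (hX : Transcendental (ZMod ℓ) X) :
    ∃ θ : Lg ℓ →ₐ[ZMod ℓ] Lg ℓ, θ (gx ℓ) = X := by
  let θ₀ : Kx ℓ →ₐ[ZMod ℓ] Lg ℓ :=
    (IntermediateField.val (ZMod ℓ)⟮X⟯).comp (RatFunc.algEquivOfTranscendental X hX).toAlgHom
  obtain ⟨θ, hθ⟩ := IsAlgClosed.surjective_domRestrict_of_isAlgebraic (K := ZMod ℓ) (L := Kx ℓ)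
    (M := Lg ℓ) (E := Lg ℓ) θ₀
  refine ⟨θ, ?_⟩
  have h1 := congrArg (fun g : Kx ℓ →ₐ[ZMod ℓ] Lg ℓ => g RatFunc.X) hθ
  have h2 : θ₀ RatFunc.X = X := by
    simp [θ₀]
  rw [← h2]
  exact h1

/-- `φ² - aφ + ℓ` kills every point of `E(Lg)` with transcendental abscissa. -/
theorem psiPt_eq_zero_of_transcendental (hℓ : 5 ≤ ℓ)
    (hgen : psiPt ℓ A B (Lg ℓ) (pgen ℓ A B) = 0) {X Y : Lg ℓ}
    (h : ((sw ℓ A B)⁄(Lg ℓ)).Nonsingular X Y) (hX : Transcendental (ZMod ℓ) X) :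
    psiPt ℓ A B (Lg ℓ) (Point.some X Y h) = 0 := by
  obtain ⟨θ, hθ⟩ := exists_theta ℓ hX
  obtain ⟨h', hmap⟩ : ∃ h' : ((sw ℓ A B)⁄(Lg ℓ)).Nonsingular (θ (gx ℓ)) (θ (gy ℓ A B)),
      Point.map (W' := (sw ℓ A B).toAffine) θ (pgen ℓ A B) =
        Point.some (θ (gx ℓ)) (θ (gy ℓ A B)) h' := by
    rw [pgen_eq ℓ A B hℓ]
    exact ⟨_, rfl⟩
  have hsq : θ (gy ℓ A B) ^ 2 = Y ^ 2 := by
    have e1 := (equation_iff_sw ℓ A B X Y).mp h.1
    rw [← map_pow, gy_sq, gf, map_add, map_add, map_mul, map_pow, hθ, θ.commutes, θ.commutes, e1]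
  have key := psiPt_map ℓ A B θ (pgen ℓ A B)
  rw [hgen] at key
  have key' : psiPt ℓ A B (Lg ℓ) (Point.map (W' := (sw ℓ A B).toAffine) θ (pgen ℓ A B)) = 0 := by
    rw [← key]; rfl
  rcases sq_eq_sq_iff_eq_or_eq_neg.mp hsq with h1 | h1
  · have e : Point.map (W' := (sw ℓ A B).toAffine) θ (pgen ℓ A B) = Point.some X Y h := by
      rw [hmap]
      simp only [Point.some.injEq]
      exact ⟨hθ, h1⟩
    rw [e] at key'
    exact key'
  · have e : Point.map (W' := (sw ℓ A B).toAffine) θ (pgen ℓ A B) = -Point.some X Y h := by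
      rw [hmap, Point.neg_some]
      simp only [Point.some.injEq]
      exact ⟨hθ, by rw [negY_sw, h1]⟩
    rw [e, map_neg, neg_eq_zero] at key'
    exact key'

end generic


section transfer

open Polynomial

/-- An embedding of `Fbar ℓ` into `Lg ℓ`. -/
noncomputable def iota : Fbar ℓ →ₐ[ZMod ℓ] Lg ℓ := IsAlgClosed.lift

lemma mem_range_iota_of_isAlgebraic {t : Lg ℓ} (ht : IsAlgebraic (ZMod ℓ) t) :
    ∃ s : Fbar ℓ, iota ℓ s = t := by
  have hint : IsIntegral (ZMod ℓ) t := ht.isIntegral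
  have hp0 : minpoly (ZMod ℓ) t ≠ 0 := minpoly.ne_zero hint
  have hsplit : ((minpoly (ZMod ℓ) t).map (algebraMap (ZMod ℓ) (Fbar ℓ))).Splits :=
    IsAlgClosed.splits _
  have hroot : (((minpoly (ZMod ℓ) t).map (algebraMap (ZMod ℓ) (Fbar ℓ))).map
      (iota ℓ).toRingHom).IsRoot t := by
    rw [Polynomial.map_map, AlgHom.toRingHom_eq_coe, AlgHom.comp_algebraMap, IsRoot.def,
      eval_map, ← aeval_def, minpoly.aeval]
  obtain ⟨s, hs⟩ := hsplit.mem_range_of_isRoot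
    ((Polynomial.map_ne_zero_iff (algebraMap (ZMod ℓ) (Fbar ℓ)).injective).mpr hp0) hroot
  exact ⟨s, hs⟩

/-- A point of `E(Lg)` with algebraic abscissa comes from `E(Fbar ℓ)`. -/
lemma exists_point_of_isAlgebraic {X Y : Lg ℓ} (h : ((sw ℓ A B)⁄(Lg ℓ)).Nonsingular X Y)
    (hX : IsAlgebraic (ZMod ℓ) X) :
    ∃ T₀ : ((sw ℓ A B)⁄(Fbar ℓ)).Point,
      Point.map (W' := (sw ℓ A B).toAffine) (iota ℓ) T₀ = Point.some X Y h := by
  obtain ⟨x₀, rfl⟩ := mem_range_iota_of_isAlgebraic ℓ hX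
  obtain ⟨y₀, hy₀⟩ := IsAlgClosed.exists_pow_nat_eq
    (x₀ ^ 3 + algebraMap (ZMod ℓ) (Fbar ℓ) A * x₀ + algebraMap (ZMod ℓ) (Fbar ℓ) B) zero_lt_two
  have e1 := (equation_iff_sw ℓ A B _ Y).mp h.1
  have hsq : Y ^ 2 = (iota ℓ y₀) ^ 2 := by
    have e2 : (iota ℓ y₀) ^ 2 = iota ℓ (y₀ ^ 2) := (map_pow _ _ _).symm
    rw [e2, hy₀, e1, map_add, map_add, map_mul, map_pow, AlgHom.commutes, AlgHom.commutes]
  obtain ⟨y₁, rfl⟩ : ∃ y₁ : Fbar ℓ, iota ℓ y₁ = Y := by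
    rcases sq_eq_sq_iff_eq_or_eq_neg.mp hsq with h1 | h1
    · exact ⟨y₀, h1.symm⟩
    · exact ⟨-y₀, by rw [map_neg, h1]⟩
  have h₀ : ((sw ℓ A B)⁄(Fbar ℓ)).Nonsingular x₀ y₁ :=
    (Affine.baseChange_nonsingular (W := (sw ℓ A B).toAffine) (iota ℓ).injective x₀ y₁).mp h
  exact ⟨Point.some x₀ y₁ h₀, rfl⟩

/-- The generic point does not come from `E(Fbar ℓ)`. -/
lemma pgen_not_in_range (hℓ : 5 ≤ ℓ) (Q : ((sw ℓ A B)⁄(Fbar ℓ)).Point) :
    Point.map (W' := (sw ℓ A B).toAffine) (iota ℓ) Q ≠ pgen ℓ A B := by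
  rw [pgen_eq ℓ A B hℓ]
  intro h
  cases Q with
  | zero => exact Point.some_ne_zero _ h.symm
  | some x y hq =>
    rw [Point.map_some] at h
    simp only [Point.some.injEq] at h
    apply gx_transcendental ℓ
    rw [← h.1]
    exact (Algebra.IsAlgebraic.isAlgebraic x).algHom (iota ℓ)

/-- `φ² - aφ + ℓ` kills the image in `E(Lg)` of every point of `E(Fbar ℓ)`. -/
theorem psiPt_iota_eq_zero (hℓ : 5 ≤ ℓ) (hgen : psiPt ℓ A B (Lg ℓ) (pgen ℓ A B) = 0)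
    (P : ((sw ℓ A B)⁄(Fbar ℓ)).Point) :
    psiPt ℓ A B (Lg ℓ) (Point.map (W' := (sw ℓ A B).toAffine) (iota ℓ) P) = 0 := by
  have hT : psiPt ℓ A B (Lg ℓ)
      (Point.map (W' := (sw ℓ A B).toAffine) (iota ℓ) P + pgen ℓ A B) = 0 := by
    rcases hT : Point.map (W' := (sw ℓ A B).toAffine) (iota ℓ) P + pgen ℓ A B with _ | ⟨X, Y, h⟩
    · exact map_zero _
    · apply psiPt_eq_zero_of_transcendental ℓ A B hℓ hgen h
      intro hX
      obtain ⟨T₀, hT₀⟩ := exists_point_of_isAlgebraic ℓ A B h hX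
      apply pgen_not_in_range ℓ A B hℓ (T₀ - P)
      rw [map_sub, hT₀, ← hT]
      abel
  have e : psiPt ℓ A B (Lg ℓ) (Point.map (W' := (sw ℓ A B).toAffine) (iota ℓ) P) =
      psiPt ℓ A B (Lg ℓ) (Point.map (W' := (sw ℓ A B).toAffine) (iota ℓ) P + pgen ℓ A B) -
        psiPt ℓ A B (Lg ℓ) (pgen ℓ A B) := by
    rw [map_add]; abel
  rw [e, hT, hgen, sub_zero]

/-- **Transfer**: the relation at the generic point implies the relation on `E(Fbar ℓ)`. -/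
theorem psiPt_Fbar_eq_zero (hℓ : 5 ≤ ℓ) (hgen : psiPt ℓ A B (Lg ℓ) (pgen ℓ A B) = 0)
    (P : ((sw ℓ A B)⁄(Fbar ℓ)).Point) : psiPt ℓ A B (Fbar ℓ) P = 0 := by
  apply Point.map_injective (W' := (sw ℓ A B).toAffine) (iota ℓ)
  rw [psiPt_map, psiPt_iota_eq_zero ℓ A B hℓ hgen]
  rfl

/-- The frozen interface statement `frobenius_relation`, given the relation at the generic
point (`hgen`, i.e. `Fermat.Agent.S52.Frob.psiPt_pgen`). -/
theorem frobenius_relation_of_generic (hℓ : 5 ≤ ℓ)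
    (hgen : psiPt ℓ A B (Lg ℓ) (pgen ℓ A B) = 0)
    (P : ((shortW A B).toAffine⁄(Fbar ℓ)).Point) :
    Fermat.Agent.S52.frobPt ℓ (shortW A B) (Fermat.Agent.S52.frobPt ℓ (shortW A B) P)
      - (shortW A B).traceOfFrobenius • Fermat.Agent.S52.frobPt ℓ (shortW A B) P
      + (ℓ : ℤ) • P = 0 := by
  have h1 : psiPt ℓ A B (Fbar ℓ) (show ((sw ℓ A B)⁄(Fbar ℓ)).Point from P) = 0 :=
    psiPt_Fbar_eq_zero ℓ A B hℓ hgen P
  have h2 := psiPt_apply ℓ A B (L := Fbar ℓ) (show ((sw ℓ A B)⁄(Fbar ℓ)).Point from P)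
  rw [h2] at h1
  exact h1

end transfer


end Fermat.Agent.S52.Frob.T8525
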