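import Fermat.Agent.S52.Frob.Transfer8525

/-!
# S52 piece B, package B0: the `k(x)`-points form a Frobenius-stable subgroup

Everything here is elementary algebra with the chord-tangent formulas on `y² = x³ + A x + B`:
`(X₁, Y₁ y) + (X₂, Y₂ y)` has slope `Λ y` with `Λ ∈ k(x)` (use `y² = f(x)`, `1/y = y/f(x)`),
hence coordinates of the form `(X₃, Y₃ y)`.  Frobenius: `(X, Y y) ↦ (X^ℓ, Y^ℓ f^((ℓ-1)/2) y)`.

Statements: helper9015's skeleton (unchanged).  Proofs: helper8525.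
-/

set_option autoImplicit false

open WeierstrassCurve WeierstrassCurve.Affine

namespace Fermat.Agent.S52.Frob

variable (ℓ : ℕ) [Fact ℓ.Prime] (A B : ZMod ℓ)

namespace B0aux

/-- The inclusion `k(x) → Lg`. -/
noncomputable abbrev io : Kx ℓ →+* Lg ℓ := algebraMap (Kx ℓ) (Lg ℓ)

lemma io_injective : Function.Injective (io ℓ) := (algebraMap (Kx ℓ) (Lg ℓ)).injective

/-- `f(x) = x³ + A x + B` as an element of `k(x)`. -/
noncomputable def fK : Kx ℓ := RatFunc.X ^ 3 + RatFunc.C A * RatFunc.X + RatFunc.C B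

lemma algebraMap_eq_io_C (a : ZMod ℓ) : algebraMap (ZMod ℓ) (Lg ℓ) a = io ℓ (RatFunc.C a) := by
  rw [IsScalarTower.algebraMap_apply (ZMod ℓ) (Kx ℓ) (Lg ℓ), RatFunc.algebraMap_eq_C]

lemma io_X : io ℓ RatFunc.X = gx ℓ := rfl

lemma io_fK : io ℓ (fK ℓ A B) = gf ℓ A B := by
  simp only [fK, gf, map_add, map_mul, map_pow, io_X, algebraMap_eq_io_C]

lemma fK_ne_zero : fK ℓ A B ≠ 0 := by
  intro h
  apply T8525.gf_ne_zero ℓ A B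
  rw [← io_fK, h, map_zero]

lemma gy_sq' : gy ℓ A B ^ 2 = io ℓ (fK ℓ A B) := by rw [gy_sq, io_fK]

lemma gy_mul_self : gy ℓ A B * gy ℓ A B = io ℓ (fK ℓ A B) := by rw [← gy_sq', sq]

/-- `ℓ = 2m + 1`. -/
lemma odd_decomp (hℓ : 5 ≤ ℓ) : ℓ = 2 * ((ℓ - 1) / 2) + 1 := by
  have hp : ℓ.Prime := Fact.out
  rcases hp.eq_two_or_odd with h | h
  · omega
  · omega

lemma gy_pow (hℓ : 5 ≤ ℓ) :
    gy ℓ A B ^ ℓ = io ℓ (fK ℓ A B ^ ((ℓ - 1) / 2)) * gy ℓ A B := by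
  have h : gy ℓ A B ^ (2 * ((ℓ - 1) / 2) + 1)
      = io ℓ (fK ℓ A B ^ ((ℓ - 1) / 2)) * gy ℓ A B := by
    rw [pow_succ, pow_mul, gy_sq', map_pow]
  exact (congrArg (fun n => gy ℓ A B ^ n) (odd_decomp ℓ hℓ)).trans h

lemma some_mem {x y : Lg ℓ} (h : ((sw ℓ A B)⁄(Lg ℓ)).Nonsingular x y) (X Y : Kx ℓ)
    (hx : x = io ℓ X) (hy : y = io ℓ Y * gy ℓ A B) :
    Point.some _ _ h ∈ genSet ℓ A B := by
  subst hx hy
  exact Or.inr ⟨X, Y, h, rfl⟩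

lemma a₂_sw : ((sw ℓ A B)⁄(Lg ℓ)).a₂ = 0 := by simp [sw]

lemma a₄_sw : ((sw ℓ A B)⁄(Lg ℓ)).a₄ = algebraMap (ZMod ℓ) (Lg ℓ) A := by simp [sw]

lemma addX_sw (x₁ x₂ L : Lg ℓ) : ((sw ℓ A B)⁄(Lg ℓ)).addX x₁ x₂ L = L ^ 2 - x₁ - x₂ := by
  simp only [Affine.addX, T8525.a₁_sw, a₂_sw]
  ring

lemma addY_sw (x₁ x₂ y₁ L : Lg ℓ) :
    ((sw ℓ A B)⁄(Lg ℓ)).addY x₁ x₂ y₁ L = -(L * (L ^ 2 - x₁ - x₂ - x₁) + y₁) := by
  simp only [Affine.addY, Affine.negAddY, Affine.negY, addX_sw, T8525.a₁_sw, T8525.a₃_sw]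
  ring

/-- The slope of the chord/tangent through two `k(x)`-points is of the form `Λ y`. -/
lemma slope_form (hℓ : 5 ≤ ℓ) (X₁ Y₁ X₂ Y₂ : Kx ℓ)
    (hxy : ¬(io ℓ X₁ = io ℓ X₂ ∧
      io ℓ Y₁ * gy ℓ A B = ((sw ℓ A B)⁄(Lg ℓ)).negY (io ℓ X₂) (io ℓ Y₂ * gy ℓ A B)))
    (h₁ : ((sw ℓ A B)⁄(Lg ℓ)).Equation (io ℓ X₁) (io ℓ Y₁ * gy ℓ A B))
    (h₂ : ((sw ℓ A B)⁄(Lg ℓ)).Equation (io ℓ X₂) (io ℓ Y₂ * gy ℓ A B)) :
    ∃ Λ : Kx ℓ, ((sw ℓ A B)⁄(Lg ℓ)).slope (io ℓ X₁) (io ℓ X₂) (io ℓ Y₁ * gy ℓ A B)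
      (io ℓ Y₂ * gy ℓ A B) = io ℓ Λ * gy ℓ A B := by
  have hgy := T8525.gy_ne_zero ℓ A B
  have h2 : (2 : Lg ℓ) ≠ 0 := T8525.two_ne_zero_of ℓ hℓ
  by_cases hx : io ℓ X₁ = io ℓ X₂
  · -- tangent case
    have hX : X₁ = X₂ := io_injective ℓ hx
    subst hX
    have hy : io ℓ Y₁ * gy ℓ A B ≠
        ((sw ℓ A B)⁄(Lg ℓ)).negY (io ℓ X₁) (io ℓ Y₂ * gy ℓ A B) := fun h => hxy ⟨rfl, h⟩
    -- `Y₁ = Y₂` since `Y₁² = Y₂²` and `Y₁ ≠ -Y₂`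
    rw [T8525.equation_iff_sw] at h₁ h₂
    have hsq : (io ℓ Y₁ - io ℓ Y₂) * (io ℓ Y₁ + io ℓ Y₂) = 0 := by
      have e : (io ℓ Y₁ * gy ℓ A B) ^ 2 = (io ℓ Y₂ * gy ℓ A B) ^ 2 := by rw [h₁, h₂]
      have e' : ((io ℓ Y₁ - io ℓ Y₂) * (io ℓ Y₁ + io ℓ Y₂)) * gy ℓ A B ^ 2 = 0 := by
        linear_combination e
      rcases mul_eq_zero.mp e' with h | h
      · exact h
      · exact absurd ((pow_eq_zero_iff two_ne_zero).mp h) hgy
    have hne : io ℓ Y₁ + io ℓ Y₂ ≠ 0 := by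
      intro h
      apply hy
      rw [T8525.negY_sw]
      linear_combination h * gy ℓ A B
    have hY : Y₁ = Y₂ := by
      apply io_injective ℓ
      have := (mul_eq_zero.mp hsq).resolve_right hne
      exact sub_eq_zero.mp this
    subst hY
    have hY0 : io ℓ Y₁ ≠ 0 := by
      intro h
      apply hne
      rw [h, add_zero]
    rw [Affine.slope_of_Y_ne rfl hy, T8525.negY_sw, T8525.a₁_sw, a₂_sw, a₄_sw]
    refine ⟨(3 * X₁ ^ 2 + RatFunc.C A) / (2 * Y₁ * fK ℓ A B), ?_⟩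
    have hf : io ℓ (fK ℓ A B) ≠ 0 := by
      rw [io_fK]; exact T8525.gf_ne_zero ℓ A B
    rw [map_div₀, map_mul, map_mul, map_add, map_mul, map_pow, algebraMap_eq_io_C,
      map_ofNat, map_ofNat]
    rw [div_mul_eq_mul_div, div_eq_div_iff (by
      intro h
      have : (2 : Lg ℓ) * (io ℓ Y₁ * gy ℓ A B) = 0 := by linear_combination h
      rcases mul_eq_zero.mp this with h' | h'
      · exact h2 h'
      · rcases mul_eq_zero.mp h' with h'' | h''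
        · exact hY0 h''
        · exact hgy h'') (mul_ne_zero (mul_ne_zero h2 hY0) hf)]
    rw [← gy_mul_self]
    ring
  · -- chord case
    rw [Affine.slope_of_X_ne hx]
    refine ⟨(Y₁ - Y₂) / (X₁ - X₂), ?_⟩
    rw [map_div₀, map_sub, map_sub]
    have : io ℓ X₁ - io ℓ X₂ ≠ 0 := sub_ne_zero.mpr hx
    field_simp

end B0aux

open B0aux

/-- The generic point is nonsingular. -/
theorem gen_nonsingular (hℓ : 5 ≤ ℓ) (_hΔ : 4 * A ^ 3 + 27 * B ^ 2 ≠ 0) :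
    ((sw ℓ A B)⁄(Lg ℓ)).Nonsingular (gx ℓ) (gy ℓ A B) :=
  T8525.gen_nonsingular ℓ A B hℓ

/-- The generic point is the affine point `(x, y)`. -/
theorem pgen_eq (hℓ : 5 ≤ ℓ) (hΔ : 4 * A ^ 3 + 27 * B ^ 2 ≠ 0) :
    pgen ℓ A B = Point.some _ _ (gen_nonsingular ℓ A B hℓ hΔ) :=
  T8525.pgen_eq ℓ A B hℓ

theorem pgen_mem (hℓ : 5 ≤ ℓ) (hΔ : 4 * A ^ 3 + 27 * B ^ 2 ≠ 0) :
    pgen ℓ A B ∈ genSet ℓ A B := by
  rw [pgen_eq ℓ A B hℓ hΔ]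
  exact some_mem ℓ A B _ RatFunc.X 1 rfl (by rw [map_one, one_mul])

theorem genSet_zero : (0 : ((sw ℓ A B)⁄(Lg ℓ)).Point) ∈ genSet ℓ A B := Or.inl rfl

theorem genSet_neg (_hℓ : 5 ≤ ℓ) {P : ((sw ℓ A B)⁄(Lg ℓ)).Point} (hP : P ∈ genSet ℓ A B) :
    -P ∈ genSet ℓ A B := by
  rcases hP with rfl | ⟨X, Y, h, rfl⟩
  · rw [neg_zero]; exact genSet_zero ℓ A B
  · rw [Point.neg_some]
    exact some_mem ℓ A B _ X (-Y) rfl (by rw [T8525.negY_sw, map_neg, neg_mul])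

theorem genSet_add (hℓ : 5 ≤ ℓ) {P Q : ((sw ℓ A B)⁄(Lg ℓ)).Point}
    (hP : P ∈ genSet ℓ A B) (hQ : Q ∈ genSet ℓ A B) : P + Q ∈ genSet ℓ A B := by
  rcases hP with rfl | ⟨X₁, Y₁, h₁, rfl⟩
  · rw [zero_add]; exact hQ
  rcases hQ with rfl | ⟨X₂, Y₂, h₂, rfl⟩
  · rw [add_zero]; exact Or.inr ⟨X₁, Y₁, h₁, rfl⟩
  by_cases hxy : io ℓ X₁ = io ℓ X₂ ∧
      io ℓ Y₁ * gy ℓ A B = ((sw ℓ A B)⁄(Lg ℓ)).negY (io ℓ X₂) (io ℓ Y₂ * gy ℓ A B)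
  · rw [Point.add_of_Y_eq hxy.1 hxy.2]; exact genSet_zero ℓ A B
  · rw [Point.add_some hxy]
    obtain ⟨Λ, hΛ⟩ := slope_form ℓ A B hℓ X₁ Y₁ X₂ Y₂ hxy h₁.1 h₂.1
    refine some_mem ℓ A B _ (Λ ^ 2 * fK ℓ A B - X₁ - X₂)
      (-(Λ * (Λ ^ 2 * fK ℓ A B - X₁ - X₂ - X₁) + Y₁)) ?_ ?_
    · rw [addX_sw, hΛ, map_sub, map_sub, map_mul, map_pow, ← gy_sq']
      ring
    · rw [addY_sw, hΛ, map_neg, map_add, map_mul, map_sub, map_sub, map_sub, map_mul, map_pow,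
        ← gy_sq']
      ring

theorem genSet_frob (hℓ : 5 ≤ ℓ) {P : ((sw ℓ A B)⁄(Lg ℓ)).Point} (hP : P ∈ genSet ℓ A B) :
    frobPt ℓ A B (Lg ℓ) P ∈ genSet ℓ A B := by
  rcases hP with rfl | ⟨X, Y, h, rfl⟩
  · rw [map_zero]; exact genSet_zero ℓ A B
  · unfold frobPt
    rw [Point.map_some]
    refine some_mem ℓ A B _ (X ^ ℓ) (Y ^ ℓ * fK ℓ A B ^ ((ℓ - 1) / 2)) ?_ ?_
    · simp
    · simp only [FiniteField.coe_frobeniusAlgHom, ZMod.card]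
      rw [mul_pow, gy_pow ℓ A B hℓ, map_mul, map_pow, map_pow]
      ring

theorem xdeg_zero : xdeg ℓ A B 0 = 0 := by
  unfold xdeg
  have : {n | ∃ (X Y : Kx ℓ)
      (h : ((sw ℓ A B)⁄(Lg ℓ)).Nonsingular (algebraMap (Kx ℓ) (Lg ℓ) X)
        (algebraMap (Kx ℓ) (Lg ℓ) Y * gy ℓ A B)),
        (0 : ((sw ℓ A B)⁄(Lg ℓ)).Point) = Point.some _ _ h ∧ n = rdeg ℓ X} = ∅ := by
    ext n
    simp only [Set.mem_ofPred_eq, Set.mem_empty_iff_false, iff_false]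
    rintro ⟨X, Y, h, he, -⟩
    exact Point.some_ne_zero h he.symm
  rw [this, Nat.sInf_empty]

theorem xdeg_some (X Y : Kx ℓ)
    (h : ((sw ℓ A B)⁄(Lg ℓ)).Nonsingular (algebraMap (Kx ℓ) (Lg ℓ) X)
      (algebraMap (Kx ℓ) (Lg ℓ) Y * gy ℓ A B)) :
    xdeg ℓ A B (Point.some _ _ h) = rdeg ℓ X := by
  unfold xdeg
  have : {n | ∃ (X' Y' : Kx ℓ)
      (h' : ((sw ℓ A B)⁄(Lg ℓ)).Nonsingular (algebraMap (Kx ℓ) (Lg ℓ) X')
        (algebraMap (Kx ℓ) (Lg ℓ) Y' * gy ℓ A B)),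
        Point.some _ _ h = Point.some _ _ h' ∧ n = rdeg ℓ X'} = {rdeg ℓ X} := by
    ext n
    simp only [Set.mem_ofPred_eq, Set.mem_singleton_iff]
    constructor
    · rintro ⟨X', Y', h', he, rfl⟩
      rw [Point.some.injEq] at he
      rw [io_injective ℓ he.1]
    · rintro rfl
      exact ⟨X, Y, h, rfl, rfl⟩
  rw [this, csInf_singleton]

theorem xdeg_neg (_hℓ : 5 ≤ ℓ) (P : ((sw ℓ A B)⁄(Lg ℓ)).Point) :
    xdeg ℓ A B (-P) = xdeg ℓ A B P := by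
  have key : ∀ (P : ((sw ℓ A B)⁄(Lg ℓ)).Point) (n : ℕ),
      (∃ (X Y : Kx ℓ) (h : ((sw ℓ A B)⁄(Lg ℓ)).Nonsingular (algebraMap (Kx ℓ) (Lg ℓ) X)
        (algebraMap (Kx ℓ) (Lg ℓ) Y * gy ℓ A B)), P = Point.some _ _ h ∧ n = rdeg ℓ X) →
      (∃ (X Y : Kx ℓ) (h : ((sw ℓ A B)⁄(Lg ℓ)).Nonsingular (algebraMap (Kx ℓ) (Lg ℓ) X)
        (algebraMap (Kx ℓ) (Lg ℓ) Y * gy ℓ A B)), -P = Point.some _ _ h ∧ n = rdeg ℓ X) := by
    rintro P n ⟨X, Y, h, rfl, rfl⟩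
    have hy : ((sw ℓ A B)⁄(Lg ℓ)).negY (algebraMap (Kx ℓ) (Lg ℓ) X)
        (algebraMap (Kx ℓ) (Lg ℓ) Y * gy ℓ A B) = algebraMap (Kx ℓ) (Lg ℓ) (-Y) * gy ℓ A B := by
      rw [T8525.negY_sw, map_neg, neg_mul]
    have h' := (Affine.nonsingular_neg ..).mpr h
    rw [hy] at h'
    refine ⟨X, -Y, h', ?_, rfl⟩
    rw [Point.neg_some]
    simp only [hy]
  unfold xdeg
  congr 1
  ext n
  simp only [Set.mem_ofPred_eq]
  constructor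
  · intro hn
    have := key (-P) n hn
    rwa [neg_neg] at this
  · exact key P n

theorem xdeg_pgen (hℓ : 5 ≤ ℓ) (hΔ : 4 * A ^ 3 + 27 * B ^ 2 ≠ 0) :
    xdeg ℓ A B (pgen ℓ A B) = 1 := by
  have h0 := gen_nonsingular ℓ A B hℓ hΔ
  have h1 : ((sw ℓ A B)⁄(Lg ℓ)).Nonsingular (algebraMap (Kx ℓ) (Lg ℓ) RatFunc.X)
      (algebraMap (Kx ℓ) (Lg ℓ) 1 * gy ℓ A B) := by
    rw [map_one, one_mul]; exact h0
  have e : pgen ℓ A B = Point.some _ _ h1 := by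
    rw [pgen_eq ℓ A B hℓ hΔ]
    simp only [map_one, one_mul]
    rfl
  rw [e, xdeg_some, rdeg, RatFunc.num_X, RatFunc.denom_X]
  simp

/-- A point of `genSet` with constant abscissa is `2`-torsion: `Y² f(x) = f(c)` forces `Y = 0`
(degree parity). -/
theorem two_nsmul_eq_zero_of_xdeg_eq_zero (_hℓ : 5 ≤ ℓ) {P : ((sw ℓ A B)⁄(Lg ℓ)).Point}
    (hP : P ∈ genSet ℓ A B) (h0 : xdeg ℓ A B P = 0) : 2 • P = 0 := by
  rcases hP with rfl | ⟨X, Y, h, rfl⟩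
  · exact nsmul_zero 2
  rw [xdeg_some] at h0
  -- `X` is constant
  have hnum : X.num.natDegree = 0 := by
    have := le_max_left X.num.natDegree X.denom.natDegree
    unfold rdeg at h0; omega
  have hden : X.denom.natDegree = 0 := by
    have := le_max_right X.num.natDegree X.denom.natDegree
    unfold rdeg at h0; omega
  obtain ⟨a, ha⟩ := Polynomial.natDegree_eq_zero.mp hnum
  obtain ⟨b, hb⟩ := Polynomial.natDegree_eq_zero.mp hden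
  have hX : X = RatFunc.C (a / b) := by
    rw [← RatFunc.num_div_denom X, ← ha, ← hb, RatFunc.algebraMap_C, RatFunc.algebraMap_C,
      map_div₀]
  set c : ZMod ℓ := a / b with hc
  -- the equation in `k(x)`
  have heq := h.1
  rw [T8525.equation_iff_sw, algebraMap_eq_io_C, algebraMap_eq_io_C, hX] at heq
  have heq' : Y ^ 2 * fK ℓ A B = RatFunc.C (c ^ 3 + A * c + B) := by
    apply io_injective ℓ
    rw [map_mul, map_pow, ← gy_sq']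
    simp only [map_add, map_mul, map_pow]
    linear_combination heq
  have hY : Y = 0 := by
    by_contra hY
    have hf := fK_ne_zero ℓ A B
    have hdeg : (fK ℓ A B).intDegree = 3 := by
      have : fK ℓ A B = algebraMap (Polynomial (ZMod ℓ)) (Kx ℓ)
          (Polynomial.X ^ 3 + Polynomial.C A * Polynomial.X + Polynomial.C B) := by
        simp [fK, RatFunc.algebraMap_X, RatFunc.algebraMap_C]
      rw [this, RatFunc.intDegree_polynomial]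
      have : (Polynomial.X ^ 3 + Polynomial.C A * Polynomial.X + Polynomial.C B :
          Polynomial (ZMod ℓ)).natDegree = 3 := by
        compute_degree!
      rw [this]; rfl
    have h1 := congrArg RatFunc.intDegree heq'
    rw [RatFunc.intDegree_C, RatFunc.intDegree_mul (pow_ne_zero 2 hY) hf, sq,
      RatFunc.intDegree_mul hY hY, hdeg] at h1
    omega
  subst hY
  rw [two_nsmul]
  apply Point.add_self_of_Y_eq
  rw [T8525.negY_sw, map_zero, zero_mul, neg_zero]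

end Fermat.Agent.S52.Frob
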