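import Fermat.Agent.S52.Frob.B0
import Fermat.Agent.S52.B.HtPar7515
import Fermat.Agent.S52.B.AddSubX

/-!
# S52 piece B, package B1: the parallelogram law for the degree

Proof: Mathlib's `addSubMap` evaluated at `P.sym2x Q` is a nonzero multiple of
`(P + Q).sym2x (P - Q)` (`Fermat.Agent.S52.B.addSubMap_eval_sym2x`); writing the abscissas as
coprime polynomial pairs this is the hypothesis of the projective parallelogram law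
`Fermat.Agent.S52.B.H7515.pht_add_sub`.
-/

set_option autoImplicit false

open WeierstrassCurve WeierstrassCurve.Affine Polynomial

namespace Fermat.Agent.S52.Frob

namespace B1

open Fermat.Agent.S52.B Fermat.Agent.S52.B.H7515

variable (ℓ : ℕ) [Fact ℓ.Prime] (A B : ZMod ℓ)

/-- The embedding `k[X] → Lg`. -/
noncomputable def iot : (ZMod ℓ)[X] →+* Lg ℓ :=
  (algebraMap (Kx ℓ) (Lg ℓ)).comp (algebraMap (ZMod ℓ)[X] (Kx ℓ))

lemma iot_injective : Function.Injective (iot ℓ) :=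
  (algebraMap (Kx ℓ) (Lg ℓ)).injective.comp (IsFractionRing.injective (ZMod ℓ)[X] (Kx ℓ))

lemma iot_C (a : ZMod ℓ) : iot ℓ (C a) = algebraMap (ZMod ℓ) (Lg ℓ) a := by
  simp only [iot, RingHom.comp_apply]
  rw [RatFunc.algebraMap_C, ← RatFunc.algebraMap_eq_C, ← IsScalarTower.algebraMap_apply]

lemma iot_ne_zero {a : (ZMod ℓ)[X]} (ha : a ≠ 0) : iot ℓ a ≠ 0 :=
  (map_ne_zero_iff _ (iot_injective ℓ)).mpr ha

/-- `(a, b)` is a coprime polynomial representative of the abscissa of `P`. -/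
def XRep (P : ((sw ℓ A B)⁄(Lg ℓ)).Point) (a b : (ZMod ℓ)[X]) : Prop :=
  IsCoprime a b ∧ ∃ c : Lg ℓ, c ≠ 0 ∧ P.xRep 0 = c * iot ℓ a ∧ P.xRep 1 = c * iot ℓ b

lemma exists_xRep {P : ((sw ℓ A B)⁄(Lg ℓ)).Point} (hP : P ∈ genSet ℓ A B) :
    ∃ a b : (ZMod ℓ)[X], XRep ℓ A B P a b ∧ xdeg ℓ A B P = pht a b := by
  rcases hP with rfl | ⟨X, Y, h, rfl⟩
  · refine ⟨1, 0, ⟨isCoprime_one_left, 1, one_ne_zero, ?_, ?_⟩, ?_⟩
    · simp
    · simp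
    · rw [xdeg_zero]
      simp [pht]
  · refine ⟨X.num, X.denom, ⟨RatFunc.isCoprime_num_denom X, (iot ℓ X.denom)⁻¹,
      inv_ne_zero (iot_ne_zero ℓ (RatFunc.denom_ne_zero X)), ?_, ?_⟩, ?_⟩
    · rw [Point.xRep_some]
      simp only [Matrix.cons_val_zero]
      have hX : X = algebraMap (ZMod ℓ)[X] (Kx ℓ) X.num / algebraMap (ZMod ℓ)[X] (Kx ℓ) X.denom :=
        (RatFunc.num_div_denom X).symm
      conv_lhs => rw [hX]
      rw [map_div₀]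
      simp only [iot, RingHom.comp_apply]
      rw [div_eq_inv_mul]
    · rw [Point.xRep_some]
      simp only [Matrix.cons_val_one, Matrix.cons_val_zero]
      rw [inv_mul_cancel₀ (iot_ne_zero ℓ (RatFunc.denom_ne_zero X))]
    · rw [xdeg_some]
      rfl

/-- the `b`-invariants of the base-changed curve -/
lemma bvals :
    ((sw ℓ A B)⁄(Lg ℓ)).b₂ = 0 ∧
    ((sw ℓ A B)⁄(Lg ℓ)).b₄ = 2 * algebraMap (ZMod ℓ) (Lg ℓ) A ∧
    ((sw ℓ A B)⁄(Lg ℓ)).b₆ = 4 * algebraMap (ZMod ℓ) (Lg ℓ) B ∧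
    ((sw ℓ A B)⁄(Lg ℓ)).b₈ = -(algebraMap (ZMod ℓ) (Lg ℓ) A) ^ 2 := by
  refine ⟨?_, ?_, ?_, ?_⟩ <;>
    simp [sw, WeierstrassCurve.b₂, WeierstrassCurve.b₄, WeierstrassCurve.b₆, WeierstrassCurve.b₈]

lemma two_ne_zero' (hℓ : 5 ≤ ℓ) : (2 : ZMod ℓ) ≠ 0 := by
  intro h
  have h2 : ((2 : ℕ) : ZMod ℓ) = 0 := by exact_mod_cast h
  rw [ZMod.natCast_eq_zero_iff] at h2
  have := Nat.le_of_dvd (by norm_num) h2
  omega

theorem pht_of_xRep (hℓ : 5 ≤ ℓ) (hΔ : 4 * A ^ 3 + 27 * B ^ 2 ≠ 0)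
    {P Q : ((sw ℓ A B)⁄(Lg ℓ)).Point} {a₁ b₁ a₂ b₂ a₃ b₃ a₄ b₄ : (ZMod ℓ)[X]}
    (h₁ : XRep ℓ A B P a₁ b₁) (h₂ : XRep ℓ A B Q a₂ b₂)
    (h₃ : XRep ℓ A B (P + Q) a₃ b₃) (h₄ : XRep ℓ A B (P - Q) a₄ b₄) :
    pht a₃ b₃ + pht a₄ b₄ = 2 * pht a₁ b₁ + 2 * pht a₂ b₂ := by
  obtain ⟨hc₁, c₁, hc₁0, hP0, hP1⟩ := h₁
  obtain ⟨hc₂, c₂, hc₂0, hQ0, hQ1⟩ := h₂
  obtain ⟨hc₃, c₃, hc₃0, hS0, hS1⟩ := h₃
  obtain ⟨hc₄, c₄, hc₄0, hD0, hD1⟩ := h₄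
  obtain ⟨c, hc0, hc⟩ := addSubMap_eval_sym2x ((sw ℓ A B)⁄(Lg ℓ)) P Q
  obtain ⟨hb₂, hb₄, hb₆, hb₈⟩ := bvals ℓ A B
  have e0 := hc 0
  have e1 := hc 1
  have e2 := hc 2
  rw [eval_addSubMap_zero] at e0
  rw [eval_addSubMap_one] at e1
  rw [eval_addSubMap_two] at e2
  rw [hb₄, hb₆, hb₈] at e0
  rw [hb₂, hb₄, hb₆] at e1
  simp only [Point.sym2x, Matrix.cons_val_zero, Matrix.cons_val_one, Matrix.cons_val,
    hP0, hP1, hQ0, hQ1, hS0, hS1, hD0, hD1] at e0 e1 e2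
  -- the three projective relations in `Lg`
  set κ : Lg ℓ := c * c₃ * c₄ / (c₁ * c₂) ^ 2 with hκ
  have hκ0 : κ ≠ 0 := by
    rw [hκ]
    exact div_ne_zero (mul_ne_zero (mul_ne_zero hc0 hc₃0) hc₄0)
      (pow_ne_zero 2 (mul_ne_zero hc₁0 hc₂0))
  have hcc : (c₁ * c₂) ^ 2 ≠ 0 := pow_ne_zero 2 (mul_ne_zero hc₁0 hc₂0)
  have r0 : iot ℓ (wP (C A) (C B) a₁ b₁ a₂ b₂) = κ * iot ℓ (a₃ * a₄) := by
    rw [map_wP, iot_C, iot_C, map_mul, hκ]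
    field_simp
    simp only [wP]
    linear_combination e0
  have r1 : iot ℓ (wS (C A) (C B) a₁ b₁ a₂ b₂) = κ * iot ℓ (a₃ * b₄ + a₄ * b₃) := by
    rw [map_wS, iot_C, iot_C, map_add, map_mul, map_mul, hκ]
    field_simp
    simp only [wS]
    linear_combination e1
  have r2 : iot ℓ (wD a₁ b₁ a₂ b₂) = κ * iot ℓ (b₃ * b₄) := by
    rw [map_wD, map_mul, hκ]
    field_simp
    simp only [wD]
    linear_combination e2
  -- the target triple is nonzero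
  have hT : a₃ * a₄ ≠ 0 ∨ a₃ * b₄ + a₄ * b₃ ≠ 0 ∨ b₃ * b₄ ≠ 0 := by
    by_contra hcon
    push Not at hcon
    obtain ⟨t0, t1, t2⟩ := hcon
    have n3 := ne_of_isCoprime hc₃
    have n4 := ne_of_isCoprime hc₄
    rcases mul_eq_zero.mp t0 with ha | ha <;> rcases mul_eq_zero.mp t2 with hb | hb
    · rcases n3 with h | h <;> contradiction
    · rw [ha, hb] at t1
      simp only [zero_mul, zero_add, mul_eq_zero] at t1
      rcases t1 with h | h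
      · rcases n4 with h' | h' <;> contradiction
      · rcases n3 with h' | h' <;> contradiction
    · rw [ha, hb] at t1
      simp only [zero_mul, add_zero, mul_eq_zero] at t1
      rcases t1 with h | h
      · rcases n3 with h' | h' <;> contradiction
      · rcases n4 with h' | h' <;> contradiction
    · rcases n4 with h | h <;> contradiction
  have hinj := iot_injective ℓ
  have h2 : (2 : ZMod ℓ) ≠ 0 := two_ne_zero' ℓ hℓ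
  -- cross-multiplication
  have cross : ∀ {w t w' t' : (ZMod ℓ)[X]}, iot ℓ w = κ * iot ℓ t → iot ℓ w' = κ * iot ℓ t' →
      t * w' = w * t' := by
    intro w t w' t' hw hw'
    apply hinj
    rw [map_mul, map_mul, hw, hw']
    ring
  have nz : ∀ {w t : (ZMod ℓ)[X]}, iot ℓ w = κ * iot ℓ t → t ≠ 0 → w ≠ 0 := by
    intro w t hw ht hw0
    rw [hw0, map_zero] at hw
    exact (mul_ne_zero hκ0 (iot_ne_zero ℓ ht)) hw.symm
  rcases hT with hT | hT | hT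
  · exact pht_add_sub h2 hΔ hc₁ hc₂ hc₃ hc₄ (nz r0 hT) (cross r0 r0) (cross r0 r1) (cross r0 r2)
  · exact pht_add_sub h2 hΔ hc₁ hc₂ hc₃ hc₄ (nz r1 hT) (cross r1 r0) (cross r1 r1) (cross r1 r2)
  · exact pht_add_sub h2 hΔ hc₁ hc₂ hc₃ hc₄ (nz r2 hT) (cross r2 r0) (cross r2 r1) (cross r2 r2)

end B1

variable (ℓ : ℕ) [Fact ℓ.Prime] (A B : ZMod ℓ)

theorem parallelogram (hℓ : 5 ≤ ℓ) (hΔ : 4 * A ^ 3 + 27 * B ^ 2 ≠ 0)
    {P Q : ((sw ℓ A B)⁄(Lg ℓ)).Point} (hP : P ∈ genSet ℓ A B) (hQ : Q ∈ genSet ℓ A B) :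
    xdeg ℓ A B (P + Q) + xdeg ℓ A B (P - Q) = 2 * xdeg ℓ A B P + 2 * xdeg ℓ A B Q := by
  have hS : P + Q ∈ genSet ℓ A B := genSet_add ℓ A B hℓ hP hQ
  have hD : P - Q ∈ genSet ℓ A B := by
    rw [sub_eq_add_neg]
    exact genSet_add ℓ A B hℓ hP (genSet_neg ℓ A B hℓ hQ)
  obtain ⟨a₁, b₁, h₁, e₁⟩ := B1.exists_xRep ℓ A B hP
  obtain ⟨a₂, b₂, h₂, e₂⟩ := B1.exists_xRep ℓ A B hQ
  obtain ⟨a₃, b₃, h₃, e₃⟩ := B1.exists_xRep ℓ A B hS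
  obtain ⟨a₄, b₄, h₄, e₄⟩ := B1.exists_xRep ℓ A B hD
  rw [e₁, e₂, e₃, e₄]
  exact B1.pht_of_xRep ℓ A B hℓ hΔ h₁ h₂ h₃ h₄

end Fermat.Agent.S52.Frob
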