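import Fermat.Agent.S52.Frob.B0
import Fermat.Agent.S52.B.Manin7085
import Fermat.Agent.S52.B.RDeg2412

/-!
# S52 piece B, package B2: degrees of Frobenius and of `φ - 1`

* `xdeg (φ P) = ℓ * xdeg P`: `φ (X, Y y) = (X^ℓ, Y^ℓ f^((ℓ-1)/2) y)` and `rdeg (X^ℓ) = ℓ * rdeg X`.
* Manin: `x(φ Pgen - Pgen) = (f (f^((ℓ-1)/2) + 1)² - (x^ℓ + x)(x^ℓ - x)²) / (x^ℓ - x)²`; the numerator has
  degree `2ℓ + 1`; the cancellation at `c ∈ F_ℓ` is `1` if `f(c) = 0`, `2` if `f(c)` is a non-square,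
  `0` if `f(c)` is a nonzero square; so the degree is `2ℓ + 1 - N₀ - 2N₋ = 1 + N₀ + 2N₊ = #E(F_ℓ)`.

Statements: helper9015's skeleton (unchanged).  Proofs: helper8525, on top of the Manin count of
helper7085 (`B/Manin7085.lean`) and `rdeg_pow` of helper2412 (`B/RDeg2412.lean`).
-/

set_option autoImplicit false

open WeierstrassCurve WeierstrassCurve.Affine

namespace Fermat.Agent.S52.Frob

variable (ℓ : ℕ) [Fact ℓ.Prime] (A B : ZMod ℓ)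

namespace B2aux

open B0aux

lemma xdeg_of_coords {x y : Lg ℓ} (h : ((sw ℓ A B)⁄(Lg ℓ)).Nonsingular x y) (X Y : Kx ℓ)
    (hx : x = io ℓ X) (hy : y = io ℓ Y * gy ℓ A B) :
    xdeg ℓ A B (Point.some _ _ h) = rdeg ℓ X := by
  subst hx hy
  exact xdeg_some ℓ A B X Y h

/-- Manin's function `x(φ P - P)` at the generic point, as an element of `k(x)`. -/
noncomputable def mR : Kx ℓ :=
  fK ℓ A B * (fK ℓ A B ^ ((ℓ - 1) / 2) + 1) ^ 2 / (RatFunc.X ^ ℓ - RatFunc.X) ^ 2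
    - (RatFunc.X ^ ℓ + RatFunc.X)

/-- The ordinate of `φ P - P` at the generic point is `mY * y`. -/
noncomputable def mY : Kx ℓ :=
  -((fK ℓ A B ^ ((ℓ - 1) / 2) + 1) / (RatFunc.X ^ ℓ - RatFunc.X)
      * (mR ℓ A B - RatFunc.X ^ ℓ) + fK ℓ A B ^ ((ℓ - 1) / 2))

lemma algebraMap_cub :
    algebraMap (Polynomial (ZMod ℓ)) (Kx ℓ) (Fermat.Agent.S52.B.Manin7085.cub A B) = fK ℓ A B := by
  simp [Fermat.Agent.S52.B.Manin7085.cub, fK, RatFunc.algebraMap_X, RatFunc.algebraMap_C]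

lemma rdeg_mR (hℓ : 5 ≤ ℓ) (hΔ : 4 * A ^ 3 + 27 * B ^ 2 ≠ 0) :
    rdeg ℓ (mR ℓ A B) = (sw ℓ A B).card := by
  have h := Fermat.Agent.S52.B.Manin7085.manin_count' (l := ℓ) (by omega : ℓ ≠ 2) hΔ
  rw [algebraMap_cub, map_sub, map_add, map_pow, RatFunc.algebraMap_X] at h
  exact h

lemma gx_pow_ne : gx ℓ ^ ℓ ≠ gx ℓ := by
  intro h
  apply T8525.gx_transcendental ℓ
  have hp : ℓ.Prime := Fact.out
  refine ⟨Polynomial.X ^ ℓ - Polynomial.X, FiniteField.X_pow_card_sub_X_ne_zero _ hp.one_lt, ?_⟩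
  simp [h]

lemma x_identity {K : Type*} [Field K] (g u d a b f : K) (hd : d ≠ 0) (hf : g ^ 2 = f) :
    ((u * g - -g) / d) ^ 2 - a - b = f * (u + 1) ^ 2 / d ^ 2 - (a + b) := by
  subst hf
  field_simp
  ring

lemma y_identity {K : Type*} [Field K] (g u d a b f r : K) (hd : d ≠ 0) (hf : g ^ 2 = f)
    (hr : r = f * (u + 1) ^ 2 / d ^ 2 - (a + b)) :
    -((u * g - -g) / d * (((u * g - -g) / d) ^ 2 - a - b - a) + u * g)
      = -((u + 1) / d * (r - a) + u) * g := by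
  subst hf hr
  field_simp
  ring

end B2aux

open B0aux B2aux

theorem xdeg_frob (hℓ : 5 ≤ ℓ) {P : ((sw ℓ A B)⁄(Lg ℓ)).Point} (hP : P ∈ genSet ℓ A B) :
    xdeg ℓ A B (frobPt ℓ A B (Lg ℓ) P) = ℓ * xdeg ℓ A B P := by
  rcases hP with rfl | ⟨X, Y, h, rfl⟩
  · rw [map_zero, xdeg_zero, mul_zero]
  · rw [xdeg_some]
    unfold frobPt
    rw [Point.map_some,
      xdeg_of_coords ℓ A B _ (X ^ ℓ) (Y ^ ℓ * fK ℓ A B ^ ((ℓ - 1) / 2)) ?_ ?_]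
    · exact Fermat.Agent.S52.B.RDeg.rdeg_pow X ℓ
    · simp
    · simp only [FiniteField.coe_frobeniusAlgHom, ZMod.card]
      rw [mul_pow, gy_pow ℓ A B hℓ, map_mul, map_pow, map_pow]
      ring

theorem xdeg_frob_sub (hℓ : 5 ≤ ℓ) (hΔ : 4 * A ^ 3 + 27 * B ^ 2 ≠ 0) :
    xdeg ℓ A B (frobPt ℓ A B (Lg ℓ) (pgen ℓ A B) - pgen ℓ A B) = (sw ℓ A B).card := by
  have hgx : gx ℓ ^ ℓ ≠ gx ℓ := gx_pow_ne ℓ
  have hσ : ∀ z : Lg ℓ, (FiniteField.frobeniusAlgHom (ZMod ℓ) (Lg ℓ)) z = z ^ ℓ := by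
    intro z
    simp only [FiniteField.coe_frobeniusAlgHom, ZMod.card]
  have hx : (FiniteField.frobeniusAlgHom (ZMod ℓ) (Lg ℓ)) (gx ℓ) ≠ gx ℓ := by
    rw [hσ]; exact hgx
  have hd : gx ℓ ^ ℓ - gx ℓ ≠ 0 := sub_ne_zero.mpr hgx
  have hR : io ℓ (mR ℓ A B) = io ℓ (fK ℓ A B) * (io ℓ (fK ℓ A B) ^ ((ℓ - 1) / 2) + 1) ^ 2
      / (gx ℓ ^ ℓ - gx ℓ) ^ 2 - (gx ℓ ^ ℓ + gx ℓ) := by
    simp only [mR, map_sub, map_add, map_div₀, map_mul, map_pow, map_one, io_X]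
  rw [pgen_eq ℓ A B hℓ hΔ, sub_eq_add_neg, Point.neg_some]
  unfold frobPt
  rw [Point.map_some, Point.add_of_X_ne hx,
    xdeg_of_coords ℓ A B _ (mR ℓ A B) (mY ℓ A B) ?_ ?_]
  · exact rdeg_mR ℓ A B hℓ hΔ
  · rw [addX_sw, Affine.slope_of_X_ne hx, T8525.negY_sw, hσ, hσ, gy_pow ℓ A B hℓ, hR, map_pow]
    exact x_identity _ _ _ _ _ _ hd (gy_sq' ℓ A B)
  · rw [addY_sw, Affine.slope_of_X_ne hx, T8525.negY_sw, hσ, hσ, gy_pow ℓ A B hℓ, map_pow]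
    have hY : io ℓ (mY ℓ A B) = -((io ℓ (fK ℓ A B) ^ ((ℓ - 1) / 2) + 1) / (gx ℓ ^ ℓ - gx ℓ)
        * (io ℓ (mR ℓ A B) - gx ℓ ^ ℓ) + io ℓ (fK ℓ A B) ^ ((ℓ - 1) / 2)) := by
      simp only [mY, map_neg, map_sub, map_add, map_div₀, map_mul, map_pow, map_one, io_X]
    rw [hY]
    exact y_identity _ _ _ _ _ _ _ hd (gy_sq' ℓ A B) hR

end Fermat.Agent.S52.Frob
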