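import Fermat.Agent.S52.Frob.B0
import Fermat.Agent.S52.B.RDeg2412

/-!
# S52 piece B, package B3: substitution of a point for the generic point

For `Q = (X_Q, Y_Q y) ∈ genSet` with non-constant `X_Q` there is a `k`-algebra endomorphism `θ` of `Lg`
with `θ x = X_Q` (extend `k(x) → k(x)`, `x ↦ X_Q`, to the algebraic closure: `IsAlgClosed.lift`).
Then `θ y = ± Y_Q y`, so `θ` maps the generic point to `± Q`; and for `R = (X_R, Y_R y)`,
`θ_* R = (X_R ∘ X_Q, …)` with `rdeg (X_R ∘ X_Q) = rdeg X_R * rdeg X_Q`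
(tower law + Mathlib `RatFunc.finrank_eq_max_natDegree`, packaged in `B/RDeg2412.lean` of helper2412).

Proved here (helper8353) from the leaf statements of `B0.lean` (`xdeg_zero`, `xdeg_some`, `pgen_eq`).
-/

set_option autoImplicit false

open WeierstrassCurve WeierstrassCurve.Affine

namespace Fermat.Agent.S52.Frob

variable (ℓ : ℕ) [Fact ℓ.Prime] (A B : ZMod ℓ)

namespace B3aux

/-- Extension of a ring homomorphism `F → M` (`M` algebraically closed) along an algebraic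
extension `L / F`. -/
theorem exists_ringHom_lift {F L M : Type*} [Field F] [Field L] [Field M] [Algebra F L]
    [Algebra.IsAlgebraic F L] [IsAlgClosed M] (f : F →+* M) :
    ∃ g : L →+* M, ∀ a : F, g (algebraMap F L a) = f a := by
  let _ : Algebra F M := f.toAlgebra
  exact ⟨(IsAlgClosed.lift : L →ₐ[F] M).toRingHom,
    fun a => (IsAlgClosed.lift : L →ₐ[F] M).commutes a⟩

/-- Two affine points with equal coordinates are equal. -/
theorem some_eq_some {F : Type*} [Field F] {W : Affine F} {x y x' y' : F}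
    (h : W.Nonsingular x y) (h' : W.Nonsingular x' y') (hx : x = x') (hy : y = y') :
    Point.some _ _ h = Point.some _ _ h' := by
  subst hx hy
  rfl

end B3aux

/-- `xdeg` of a point whose coordinates are of the shape `(X, Y·y)`. -/
theorem B3aux.xdeg_of_coords {x y : Lg ℓ} (h : ((sw ℓ A B)⁄(Lg ℓ)).Nonsingular x y)
    (X Y : Kx ℓ) (hx : x = algebraMap (Kx ℓ) (Lg ℓ) X)
    (hy : y = algebraMap (Kx ℓ) (Lg ℓ) Y * gy ℓ A B) :
    xdeg ℓ A B (Point.some _ _ h) = rdeg ℓ X := by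
  subst hx hy
  exact xdeg_some ℓ A B X Y h

/-- The Weierstrass equation of a point of `E(Lg)`. -/
theorem B3aux.eqn_of_nonsingular {x y : Lg ℓ} (h : ((sw ℓ A B)⁄(Lg ℓ)).Nonsingular x y) :
    y ^ 2 = x ^ 3 + algebraMap (ZMod ℓ) (Lg ℓ) A * x + algebraMap (ZMod ℓ) (Lg ℓ) B := by
  have h1 := h.1
  rw [Affine.equation_iff] at h1
  have e1 : ((sw ℓ A B)⁄(Lg ℓ)).a₁ = 0 := by simp [sw, WeierstrassCurve.baseChange]
  have e2 : ((sw ℓ A B)⁄(Lg ℓ)).a₂ = 0 := by simp [sw, WeierstrassCurve.baseChange]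
  have e3 : ((sw ℓ A B)⁄(Lg ℓ)).a₃ = 0 := by simp [sw, WeierstrassCurve.baseChange]
  have e4 : ((sw ℓ A B)⁄(Lg ℓ)).a₄ = algebraMap (ZMod ℓ) (Lg ℓ) A := by
    simp [sw, WeierstrassCurve.baseChange]
  have e6 : ((sw ℓ A B)⁄(Lg ℓ)).a₆ = algebraMap (ZMod ℓ) (Lg ℓ) B := by
    simp [sw, WeierstrassCurve.baseChange]
  rw [e1, e2, e3, e4, e6] at h1
  linear_combination h1

theorem exists_subst (hℓ : 5 ≤ ℓ) (hΔ : 4 * A ^ 3 + 27 * B ^ 2 ≠ 0)
    {Q : ((sw ℓ A B)⁄(Lg ℓ)).Point} (hQ : Q ∈ genSet ℓ A B) (hQ0 : xdeg ℓ A B Q ≠ 0) :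
    ∃ θ : Lg ℓ →ₐ[ZMod ℓ] Lg ℓ,
      (Point.map (W' := (sw ℓ A B).toAffine) θ (pgen ℓ A B) = Q ∨
        Point.map (W' := (sw ℓ A B).toAffine) θ (pgen ℓ A B) = -Q) ∧
      ∀ R ∈ genSet ℓ A B,
        xdeg ℓ A B (Point.map (W' := (sw ℓ A B).toAffine) θ R) = xdeg ℓ A B R * xdeg ℓ A B Q := by
  rcases hQ with rfl | ⟨XQ, YQ, hns, rfl⟩
  · exact absurd (xdeg_zero ℓ A B) hQ0
  have hdQ : xdeg ℓ A B (Point.some _ _ hns) = rdeg ℓ XQ := xdeg_some ℓ A B XQ YQ hns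
  rw [hdQ] at hQ0
  -- `X_Q` is not constant
  have hXQ : ¬ ∃ c : ZMod ℓ, XQ = RatFunc.C c := fun h =>
    hQ0 ((Fermat.Agent.S52.B.RDeg.rdeg_eq_zero_iff XQ).mpr h)
  -- the substitution `x ↦ X_Q` on `k(x)` and its extension to `Lg`
  set σ : Kx ℓ →ₐ[ZMod ℓ] Kx ℓ := Fermat.Agent.S52.B.RDeg.substHom XQ hXQ with hσ
  have hσX : σ RatFunc.X = XQ := Fermat.Agent.S52.B.RDeg.substHom_X XQ hXQ
  obtain ⟨g, hg⟩ := B3aux.exists_ringHom_lift (L := Lg ℓ)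
    ((algebraMap (Kx ℓ) (Lg ℓ)).comp σ.toRingHom)
  have hg' : ∀ a : Kx ℓ, g (algebraMap (Kx ℓ) (Lg ℓ) a) = algebraMap (Kx ℓ) (Lg ℓ) (σ a) := hg
  let θ : Lg ℓ →ₐ[ZMod ℓ] Lg ℓ :=
    { g with
      commutes' := fun c => by
        show g (algebraMap (ZMod ℓ) (Lg ℓ) c) = algebraMap (ZMod ℓ) (Lg ℓ) c
        rw [IsScalarTower.algebraMap_apply (ZMod ℓ) (Kx ℓ) (Lg ℓ), hg', AlgHom.commutes] }
  have hθ : ∀ a : Kx ℓ, θ (algebraMap (Kx ℓ) (Lg ℓ) a) = algebraMap (Kx ℓ) (Lg ℓ) (σ a) := hg'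
  have hθx : θ (gx ℓ) = algebraMap (Kx ℓ) (Lg ℓ) XQ := by
    rw [gx, hθ, hσX]
  -- `θ y = ± Y_Q y`
  have hQeq := B3aux.eqn_of_nonsingular ℓ A B hns
  have hθy2 : θ (gy ℓ A B) ^ 2 = (algebraMap (Kx ℓ) (Lg ℓ) YQ * gy ℓ A B) ^ 2 := by
    rw [← map_pow, gy_sq, gf, map_add, map_add, map_mul, map_pow, AlgHom.commutes,
      AlgHom.commutes, hθx, hQeq]
  have hθy : θ (gy ℓ A B) = algebraMap (Kx ℓ) (Lg ℓ) YQ * gy ℓ A B ∨
      θ (gy ℓ A B) = -(algebraMap (Kx ℓ) (Lg ℓ) YQ * gy ℓ A B) :=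
    sq_eq_sq_iff_eq_or_eq_neg.mp hθy2
  refine ⟨θ, ?_, ?_⟩
  · rw [pgen_eq ℓ A B hℓ hΔ, Point.map_some]
    rcases hθy with h | h
    · left
      exact B3aux.some_eq_some _ _ hθx h
    · right
      rw [Point.neg_some]
      refine B3aux.some_eq_some _ _ hθx ?_
      rw [h]
      simp [Affine.negY, sw]
  · rintro R (rfl | ⟨XR, YR, hR, rfl⟩)
    · rw [Point.map_zero, xdeg_zero, zero_mul]
    · rw [Point.map_some, hdQ, xdeg_some]
      have hx : θ (algebraMap (Kx ℓ) (Lg ℓ) XR) = algebraMap (Kx ℓ) (Lg ℓ) (σ XR) := hθ XR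
      have hmul : rdeg ℓ (σ XR) = rdeg ℓ XR * rdeg ℓ XQ :=
        Fermat.Agent.S52.B.RDeg.rdeg_substHom XQ hXQ XR
      rw [← hmul]
      rcases hθy with h | h
      · refine B3aux.xdeg_of_coords ℓ A B _ (σ XR) (σ YR * YQ) hx ?_
        rw [map_mul, hθ, h, map_mul]
        ring
      · refine B3aux.xdeg_of_coords ℓ A B _ (σ XR) (-(σ YR * YQ)) hx ?_
        rw [map_mul, hθ, h, map_neg, map_mul]
        ring

end Fermat.Agent.S52.Frob
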