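import Fermat.Agent.S52.Frob.Defs

/-!
# S52 piece B: naturality of Frobenius and of `φ² - aφ + ℓ` in the field
-/

set_option autoImplicit false

open WeierstrassCurve WeierstrassCurve.Affine

namespace Fermat.Agent.S52.Frob

variable (ℓ : ℕ) [Fact ℓ.Prime] (A B : ZMod ℓ)

variable {L M : Type*} [Field L] [DecidableEq L] [Algebra (ZMod ℓ) L]
  [Field M] [DecidableEq M] [Algebra (ZMod ℓ) M]

theorem frobPt_map (σ : L →ₐ[ZMod ℓ] M) (P : ((sw ℓ A B)⁄L).Point) :
    Point.map (W' := (sw ℓ A B).toAffine) σ (frobPt ℓ A B L P) =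
      frobPt ℓ A B M (Point.map (W' := (sw ℓ A B).toAffine) σ P) := by
  have h : σ.comp (FiniteField.frobeniusAlgHom (ZMod ℓ) L) =
      (FiniteField.frobeniusAlgHom (ZMod ℓ) M).comp σ := by
    ext t
    simp [FiniteField.coe_frobeniusAlgHom]
  unfold frobPt
  rw [Point.map_map, Point.map_map, h]

theorem psiPt_apply (P : ((sw ℓ A B)⁄L).Point) :
    psiPt ℓ A B L P = frobPt ℓ A B L (frobPt ℓ A B L P)
      - (sw ℓ A B).traceOfFrobenius • frobPt ℓ A B L P + (ℓ : ℤ) • P := by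
  simp [psiPt]

theorem psiPt_map (σ : L →ₐ[ZMod ℓ] M) (P : ((sw ℓ A B)⁄L).Point) :
    Point.map (W' := (sw ℓ A B).toAffine) σ (psiPt ℓ A B L P) =
      psiPt ℓ A B M (Point.map (W' := (sw ℓ A B).toAffine) σ P) := by
  rw [psiPt_apply, psiPt_apply, map_add, map_sub, map_zsmul, map_zsmul, frobPt_map, frobPt_map]

end Fermat.Agent.S52.Frob
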