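import Mathlib

/-!
# S52 piece B: abstract quadratic-form bookkeeping

A function `d : Γ → ℤ` on an abelian group satisfying the parallelogram law is a quadratic form.
If moreover `d (φ P) = ℓ d P`, `d g = 1`, `d (φ g - g) = N` and
`d (φ² g - g) = N (2ℓ + 2 - N)`, then `d (φ² g - (ℓ + 1 - N) φ g + ℓ g) = 0`.
-/

set_option autoImplicit false

namespace Fermat.Agent.S52.Frob.Quad

variable {Γ : Type*} [AddCommGroup Γ] (d : Γ → ℤ)

/-- The parallelogram law. -/
def Par : Prop := ∀ P Q : Γ, d (P + Q) + d (P - Q) = 2 * d P + 2 * d Q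

/-- The polar form. -/
def bil (P Q : Γ) : ℤ := d (P + Q) - d P - d Q

variable {d}

lemma d_zero (h : Par d) : d 0 = 0 := by
  have := h 0 0
  simp at this
  omega

lemma d_neg (h : Par d) (P : Γ) : d (-P) = d P := by
  have h1 := h 0 P
  have h0 := d_zero h
  simp only [zero_add, zero_sub, h0] at h1
  omega

lemma d_sub_eq (h : Par d) (P Q : Γ) : d (P - Q) = 2 * d P + 2 * d Q - d (P + Q) := by
  have := h P Q
  omega

lemma cube (h : Par d) (x y z : Γ) :
    d (x + y + z) = d (x + y) + d (y + z) + d (x + z) - d x - d y - d z := by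
  have ha := h (x + y) z
  have hb := h x (y - z)
  have hc := h (x + z) y
  have hd := h y z
  have e1 : x + (y - z) = x + y - z := by abel
  have e2 : x - (y - z) = x + z - y := by abel
  have e3 : x + z + y = x + y + z := by abel
  rw [e1, e2] at hb
  rw [e3] at hc
  omega

lemma bil_add_left (h : Par d) (x z y : Γ) : bil d (x + z) y = bil d x y + bil d z y := by
  unfold bil
  have hc := cube h x z y
  have e1 : z + y = z + y := rfl
  rw [hc]
  ring

lemma bil_comm (x y : Γ) : bil d x y = bil d y x := by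
  unfold bil
  rw [add_comm]
  ring

lemma bil_add_right (h : Par d) (x y z : Γ) : bil d x (y + z) = bil d x y + bil d x z := by
  rw [bil_comm, bil_add_left h, bil_comm y, bil_comm z]

lemma bil_zero_left (h : Par d) (y : Γ) : bil d 0 y = 0 := by
  unfold bil
  rw [zero_add, d_zero h]
  ring

lemma bil_neg_left (h : Par d) (x y : Γ) : bil d (-x) y = - bil d x y := by
  have := bil_add_left h x (-x) y
  rw [add_neg_cancel, bil_zero_left h] at this
  omega

/-- The polar form as a biadditive map in the first variable. -/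
def bilHom (h : Par d) (y : Γ) : Γ →+ ℤ where
  toFun x := bil d x y
  map_zero' := bil_zero_left h y
  map_add' x z := bil_add_left h x z y

lemma bil_zsmul_left (h : Par d) (n : ℤ) (x y : Γ) : bil d (n • x) y = n * bil d x y := by
  have := map_zsmul (bilHom h y) n x
  simpa [bilHom] using this

lemma bil_zsmul_right (h : Par d) (n : ℤ) (x y : Γ) : bil d x (n • y) = n * bil d x y := by
  rw [bil_comm, bil_zsmul_left h, bil_comm]

lemma d_add (x y : Γ) : d (x + y) = d x + d y + bil d x y := by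
  unfold bil
  ring

lemma bil_self (h : Par d) (x : Γ) : bil d x x = 2 * d x := by
  unfold bil
  have := h x x
  rw [sub_self, d_zero h] at this
  omega

lemma d_zsmul (h : Par d) (n : ℤ) (x : Γ) : d (n • x) = n ^ 2 * d x := by
  have h1 : bil d (n • x) (n • x) = 2 * d (n • x) := bil_self h _
  rw [bil_zsmul_left h, bil_zsmul_right h, bil_self h] at h1
  have : 2 * d (n • x) = 2 * (n ^ 2 * d x) := by rw [← h1]; ring
  omega

/-- The main bookkeeping identity. -/
theorem key (h : Par d) (φ : Γ →+ Γ) (ℓ N : ℤ) (hφ : ∀ P, d (φ P) = ℓ * d P) (g : Γ)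
    (hg : d g = 1) (hN : d (φ g - g) = N) (hmul : d (φ (φ g) - g) = N * (2 * ℓ + 2 - N)) :
    d (φ (φ g) - (ℓ + 1 - N) • φ g + ℓ • g) = 0 := by
  set u := φ (φ g) with hu
  set v := φ g with hv
  have du : d u = ℓ ^ 2 := by rw [hu, hφ, hφ, hg]; ring
  have dv : d v = ℓ := by rw [hv, hφ, hg]; ring
  -- `bil v g`
  have hvg : d (v + g) = 2 * ℓ + 2 - N := by
    have := h v g
    rw [hN, dv, hg] at this
    omega
  have bvg : bil d v g = ℓ + 1 - N := by
    unfold bil
    rw [hvg, dv, hg]
    ring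
  -- `bil u v`
  have buv : bil d u v = ℓ * (ℓ + 1 - N) := by
    unfold bil
    have : u + v = φ (v + g) := by rw [map_add]
    rw [this, hφ, hvg, du, dv]
    ring
  -- `bil u g`
  have bug : bil d u g = ℓ ^ 2 + 1 - N * (2 * ℓ + 2 - N) := by
    have h1 : d (u - g) = d u + d (-g) + bil d u (-g) := by
      rw [sub_eq_add_neg]; exact d_add _ _
    rw [hmul, du, d_neg h, hg, bil_comm, bil_neg_left h, bil_comm] at h1
    omega
  -- expand
  have e : u - (ℓ + 1 - N) • v + ℓ • g = u + ((-(ℓ + 1 - N)) • v + ℓ • g) := by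
    rw [neg_smul]; abel
  have h1 : d (u + ((-(ℓ + 1 - N)) • v + ℓ • g)) =
      d u + d ((-(ℓ + 1 - N)) • v + ℓ • g) + bil d u ((-(ℓ + 1 - N)) • v + ℓ • g) :=
    d_add (d := d) _ _
  have h2 : d ((-(ℓ + 1 - N)) • v + ℓ • g) =
      d ((-(ℓ + 1 - N)) • v) + d (ℓ • g) + bil d ((-(ℓ + 1 - N)) • v) (ℓ • g) :=
    d_add (d := d) _ _
  rw [e, h1, h2, bil_add_right h, bil_zsmul_right h, bil_zsmul_right h,
    bil_zsmul_left h, bil_zsmul_right h, d_zsmul h, d_zsmul h, du, dv, hg, buv, bug, bvg]
  ring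

end Fermat.Agent.S52.Frob.Quad
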