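import Fermat.Agent.S52.Frob.B0
import Fermat.Agent.S52.Frob.B1
import Fermat.Agent.S52.Frob.B2
import Fermat.Agent.S52.Frob.B3
import Fermat.Agent.S52.Frob.Natural
import Fermat.Agent.S52.Frob.QuadAbs

/-!
# S52 piece B, package B4: `φ² - aφ + ℓ` kills the generic point
-/

set_option autoImplicit false

open WeierstrassCurve WeierstrassCurve.Affine

namespace Fermat.Agent.S52.Frob

variable (ℓ : ℕ) [Fact ℓ.Prime] (A B : ZMod ℓ)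

/-- The subgroup of `k(x)`-points. -/
def genSub (hℓ : 5 ≤ ℓ) : AddSubgroup ((sw ℓ A B)⁄(Lg ℓ)).Point where
  carrier := genSet ℓ A B
  add_mem' hP hQ := genSet_add ℓ A B hℓ hP hQ
  zero_mem' := genSet_zero ℓ A B
  neg_mem' hP := genSet_neg ℓ A B hℓ hP

lemma mem_genSub (hℓ : 5 ≤ ℓ) {P : ((sw ℓ A B)⁄(Lg ℓ)).Point} :
    P ∈ genSub ℓ A B hℓ ↔ P ∈ genSet ℓ A B := Iff.rfl

/-- Frobenius restricted to the subgroup of `k(x)`-points. -/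
noncomputable def frobGen (hℓ : 5 ≤ ℓ) : genSub ℓ A B hℓ →+ genSub ℓ A B hℓ :=
  ((frobPt ℓ A B (Lg ℓ)).comp (genSub ℓ A B hℓ).subtype).codRestrict (genSub ℓ A B hℓ)
    (fun P => genSet_frob ℓ A B hℓ P.2)

/-- The degree function on the subgroup of `k(x)`-points. -/
noncomputable def dGen (hℓ : 5 ≤ ℓ) (P : genSub ℓ A B hℓ) : ℤ := (xdeg ℓ A B P.1 : ℤ)

lemma par_dGen (hℓ : 5 ≤ ℓ) (hΔ : 4 * A ^ 3 + 27 * B ^ 2 ≠ 0) : Quad.Par (dGen ℓ A B hℓ) := by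
  intro P Q
  have := parallelogram ℓ A B hℓ hΔ P.2 Q.2
  unfold dGen
  push_cast [AddSubgroup.coe_add, AddSubgroup.coe_sub]
  exact_mod_cast this

lemma card_zmod_cast : (Nat.card (ZMod ℓ) : ℤ) = ℓ := by
  rw [Nat.card_eq_fintype_card, ZMod.card]

lemma xdeg_two_nsmul (hℓ : 5 ≤ ℓ) (hΔ : 4 * A ^ 3 + 27 * B ^ 2 ≠ 0)
    {P : ((sw ℓ A B)⁄(Lg ℓ)).Point} (hP : P ∈ genSet ℓ A B) :
    xdeg ℓ A B (2 • P) = 4 * xdeg ℓ A B P := by
  have := parallelogram ℓ A B hℓ hΔ hP hP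
  rw [sub_self, xdeg_zero, ← two_nsmul] at this
  omega

/-- `φ² - aφ + ℓ` kills the generic point. -/
theorem psiPt_pgen (hℓ : 5 ≤ ℓ) (hΔ : 4 * A ^ 3 + 27 * B ^ 2 ≠ 0) :
    psiPt ℓ A B (Lg ℓ) (pgen ℓ A B) = 0 := by
  have hℓpos : (0 : ℤ) < ℓ := by exact_mod_cast (Fact.out : ℓ.Prime).pos
  set G := genSub ℓ A B hℓ with hG
  set φ := frobGen ℓ A B hℓ with hφdef
  set d := dGen ℓ A B hℓ with hd
  have hpar : Quad.Par d := par_dGen ℓ A B hℓ hΔ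
  set g : G := ⟨pgen ℓ A B, pgen_mem ℓ A B hℓ hΔ⟩ with hg
  set N : ℤ := ((sw ℓ A B).card : ℤ) with hN
  have hφ : ∀ P : G, d (φ P) = (ℓ : ℤ) * d P := by
    intro P
    have := xdeg_frob ℓ A B hℓ P.2
    simp only [hd, dGen, hφdef, frobGen]
    exact_mod_cast this
  have hdg : d g = 1 := by
    have := xdeg_pgen ℓ A B hℓ hΔ
    simp only [hd, dGen, hg]
    exact_mod_cast this
  have hdN : d (φ g - g) = N := by
    have := xdeg_frob_sub ℓ A B hℓ hΔ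
    simp only [hd, dGen, hg, hφdef, frobGen, hN]
    exact_mod_cast this
  -- `d (φ g + g) = 2ℓ + 2 - N`, and it is nonzero
  have hplus : d (φ g + g) = 2 * (ℓ : ℤ) + 2 - N := by
    have := hpar (φ g) g
    rw [hdN, hφ, hdg] at this
    omega
  have hplus_ne : d (φ g + g) ≠ 0 := by
    intro h0
    -- then `φ g + g` is `2`-torsion, so `4ℓ = 4`
    have h0' : xdeg ℓ A B ((φ g + g : G) : ((sw ℓ A B)⁄(Lg ℓ)).Point) = 0 := by
      have : d (φ g + g) = (xdeg ℓ A B ((φ g + g : G) : ((sw ℓ A B)⁄(Lg ℓ)).Point) : ℤ) := rfl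
      rw [this] at h0
      exact_mod_cast h0
    have h2 := two_nsmul_eq_zero_of_xdeg_eq_zero ℓ A B hℓ (φ g + g : G).2 h0'
    have h2' : (2 : ℤ) • (φ g + g) = 0 := by
      apply Subtype.ext
      rw [two_zsmul]
      rw [two_nsmul] at h2
      exact h2
    have e1 : (2 : ℤ) • φ g = (-2 : ℤ) • g := by
      have : (2 : ℤ) • (φ g + g) = (2 : ℤ) • φ g + (2 : ℤ) • g := smul_add _ _ _
      rw [this] at h2'
      rw [neg_smul]
      exact eq_neg_of_add_eq_zero_left h2'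
    have e2 := congrArg d e1
    rw [Quad.d_zsmul hpar, Quad.d_zsmul hpar, hφ, hdg] at e2
    have : (ℓ : ℤ) = 1 := by linarith
    have hℓ' : (5 : ℤ) ≤ ℓ := by exact_mod_cast hℓ
    omega
  -- multiplicativity instance: `d (φ² g - g) = d (φ g - g) * d (φ g + g)`
  have hmul : d (φ (φ g) - g) = N * (2 * (ℓ : ℤ) + 2 - N) := by
    have hQmem : ((φ g + g : G) : ((sw ℓ A B)⁄(Lg ℓ)).Point) ∈ genSet ℓ A B := (φ g + g : G).2
    have hQ0 : xdeg ℓ A B ((φ g + g : G) : ((sw ℓ A B)⁄(Lg ℓ)).Point) ≠ 0 := by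
      intro h
      apply hplus_ne
      have : d (φ g + g) = (xdeg ℓ A B ((φ g + g : G) : ((sw ℓ A B)⁄(Lg ℓ)).Point) : ℤ) := rfl
      rw [this, h]
      rfl
    obtain ⟨θ, hθ, hθdeg⟩ := exists_subst ℓ A B hℓ hΔ hQmem hQ0
    have hR := hθdeg _ (φ g - g : G).2
    -- `θ_* (φ g - g) = ± (φ² g - g)`
    have hcoe_sub : ((φ g - g : G) : ((sw ℓ A B)⁄(Lg ℓ)).Point) =
        frobPt ℓ A B (Lg ℓ) (pgen ℓ A B) - pgen ℓ A B := rfl
    have hcoe_add : ((φ g + g : G) : ((sw ℓ A B)⁄(Lg ℓ)).Point) =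
        frobPt ℓ A B (Lg ℓ) (pgen ℓ A B) + pgen ℓ A B := rfl
    have hcoe2 : ((φ (φ g) - g : G) : ((sw ℓ A B)⁄(Lg ℓ)).Point) =
        frobPt ℓ A B (Lg ℓ) (frobPt ℓ A B (Lg ℓ) (pgen ℓ A B)) - pgen ℓ A B := rfl
    have hmap : Point.map (W' := (sw ℓ A B).toAffine) θ
          (frobPt ℓ A B (Lg ℓ) (pgen ℓ A B) - pgen ℓ A B) =
        frobPt ℓ A B (Lg ℓ) (Point.map (W' := (sw ℓ A B).toAffine) θ (pgen ℓ A B))
          - Point.map (W' := (sw ℓ A B).toAffine) θ (pgen ℓ A B) := by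
      rw [map_sub, frobPt_map]
    have hval : xdeg ℓ A B (Point.map (W' := (sw ℓ A B).toAffine) θ
          (frobPt ℓ A B (Lg ℓ) (pgen ℓ A B) - pgen ℓ A B)) =
        xdeg ℓ A B (frobPt ℓ A B (Lg ℓ) (frobPt ℓ A B (Lg ℓ) (pgen ℓ A B)) - pgen ℓ A B) := by
      rw [hmap]
      rcases hθ with h | h
      · rw [h, hcoe_add, map_add]
        congr 1
        abel
      · rw [h, hcoe_add, map_neg, map_add, ← xdeg_neg ℓ A B hℓ]
        congr 1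
        abel
    rw [hcoe_sub, hval] at hR
    have h1 : d (φ (φ g) - g) = (xdeg ℓ A B
        (frobPt ℓ A B (Lg ℓ) (frobPt ℓ A B (Lg ℓ) (pgen ℓ A B)) - pgen ℓ A B) : ℤ) := rfl
    have h2 : d (φ g - g) = (xdeg ℓ A B (frobPt ℓ A B (Lg ℓ) (pgen ℓ A B) - pgen ℓ A B) : ℤ) := rfl
    have h3 : d (φ g + g) = (xdeg ℓ A B ((φ g + g : G) : ((sw ℓ A B)⁄(Lg ℓ)).Point) : ℤ) := rfl
    rw [h1, hR, Nat.cast_mul, ← h2, ← h3, hdN, hplus]
  -- bookkeeping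
  have hkey := Quad.key hpar φ (ℓ : ℤ) N hφ g hdg hdN hmul
  -- translate to `psiPt`
  have hpsi : ((φ (φ g) - ((ℓ : ℤ) + 1 - N) • φ g + (ℓ : ℤ) • g : G) :
      ((sw ℓ A B)⁄(Lg ℓ)).Point) = psiPt ℓ A B (Lg ℓ) (pgen ℓ A B) := by
    rw [psiPt_apply]
    have ht : (sw ℓ A B).traceOfFrobenius = (ℓ : ℤ) + 1 - N := by
      unfold WeierstrassCurve.traceOfFrobenius
      rw [card_zmod_cast]
    rw [ht]
    rfl
  have hx0 : xdeg ℓ A B (psiPt ℓ A B (Lg ℓ) (pgen ℓ A B)) = 0 := by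
    rw [← hpsi]
    have : d (φ (φ g) - ((ℓ : ℤ) + 1 - N) • φ g + (ℓ : ℤ) • g) =
        (xdeg ℓ A B ((φ (φ g) - ((ℓ : ℤ) + 1 - N) • φ g + (ℓ : ℤ) • g : G) :
          ((sw ℓ A B)⁄(Lg ℓ)).Point) : ℤ) := rfl
    rw [this] at hkey
    exact_mod_cast hkey
  have hmem : psiPt ℓ A B (Lg ℓ) (pgen ℓ A B) ∈ genSet ℓ A B := by
    rw [← hpsi]
    exact (φ (φ g) - ((ℓ : ℤ) + 1 - N) • φ g + (ℓ : ℤ) • g : G).2
  have h2tors := two_nsmul_eq_zero_of_xdeg_eq_zero ℓ A B hℓ hmem hx0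
  -- substitute `2 • pgen`
  have hpm := pgen_mem ℓ A B hℓ hΔ
  have h2mem : 2 • pgen ℓ A B ∈ genSet ℓ A B := by
    rw [two_nsmul]
    exact genSet_add ℓ A B hℓ hpm hpm
  have h2ne : xdeg ℓ A B (2 • pgen ℓ A B) ≠ 0 := by
    rw [xdeg_two_nsmul ℓ A B hℓ hΔ hpm, xdeg_pgen ℓ A B hℓ hΔ]
    norm_num
  obtain ⟨θ, hθ, -⟩ := exists_subst ℓ A B hℓ hΔ h2mem h2ne
  have hnat := psiPt_map ℓ A B θ (pgen ℓ A B)
  have hzero : Point.map (W' := (sw ℓ A B).toAffine) θ (psiPt ℓ A B (Lg ℓ) (pgen ℓ A B)) = 0 := by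
    rw [hnat]
    rcases hθ with h | h
    · rw [h, map_nsmul, h2tors]
    · rw [h, map_neg, map_nsmul, h2tors, neg_zero]
  have hinj := Point.map_injective (W' := (sw ℓ A B).toAffine) θ
  exact hinj (by rw [hzero, map_zero])

end Fermat.Agent.S52.Frob
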