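import Mathlib
import Fermat.Prelude.Def_FLTPrelim_Modularity

/-!
# S52, piece B (Frobenius relation): shared definitions

`k = ZMod ℓ`, `E : y² = x³ + A x + B` over `k`.
* `sw ℓ A B`      : the short Weierstrass curve.
* `frobPt ℓ A B L`: the `ℓ`-power Frobenius on `E(L)`, for any field `L ⊇ k`.
* `psiPt ℓ A B L` : `φ² - a φ + ℓ` on `E(L)`, `a = traceOfFrobenius`.
* `Lg ℓ`          : an algebraic closure of `k(x)`; `gx`, `gy` the generic point `(x, y)`, `y² = f(x)`.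
* `genSet`        : the points `O` and `(X, Y·y)` with `X Y ∈ k(x)`.
* `rdeg`, `xdeg`  : degree of a rational function as a map `ℙ¹ → ℙ¹`; `xdeg P = rdeg X`.
-/

set_option autoImplicit false

open WeierstrassCurve WeierstrassCurve.Affine

namespace Fermat.Agent.S52.Frob

variable (ℓ : ℕ) [Fact ℓ.Prime] (A B : ZMod ℓ)

/-- The short Weierstrass curve `y² = x³ + A x + B` over `ZMod ℓ`. -/
def sw : WeierstrassCurve (ZMod ℓ) := ⟨0, 0, 0, A, B⟩

section Frob

variable (L : Type*) [Field L] [DecidableEq L] [Algebra (ZMod ℓ) L]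

/-- The `ℓ`-power Frobenius on the points of `E` over a field `L ⊇ ZMod ℓ`. -/
noncomputable def frobPt : ((sw ℓ A B)⁄L).Point →+ ((sw ℓ A B)⁄L).Point :=
  Point.map (W' := (sw ℓ A B).toAffine) (FiniteField.frobeniusAlgHom (ZMod ℓ) L)

/-- `φ² - a φ + ℓ` on the points of `E` over `L`. -/
noncomputable def psiPt : ((sw ℓ A B)⁄L).Point →+ ((sw ℓ A B)⁄L).Point :=
  (frobPt ℓ A B L).comp (frobPt ℓ A B L) - (sw ℓ A B).traceOfFrobenius • frobPt ℓ A B L
    + (ℓ : ℤ) • AddMonoidHom.id _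

end Frob

/-- The rational function field `k(x)`. -/
abbrev Kx : Type := RatFunc (ZMod ℓ)

/-- An algebraic closure of `k(x)`. -/
abbrev Lg : Type := AlgebraicClosure (RatFunc (ZMod ℓ))

/-- Decidable equality on `Lg` (classical), needed for the group law on points. -/
noncomputable instance instDecEqLg : DecidableEq (Lg ℓ) := Classical.decEq _

/-- The generic abscissa `x ∈ Lg`. -/
noncomputable def gx : Lg ℓ := algebraMap (Kx ℓ) (Lg ℓ) RatFunc.X

/-- `f(x) = x³ + A x + B ∈ Lg`. -/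
noncomputable def gf : Lg ℓ :=
  gx ℓ ^ 3 + algebraMap (ZMod ℓ) (Lg ℓ) A * gx ℓ + algebraMap (ZMod ℓ) (Lg ℓ) B

lemma exists_gy : ∃ y : Lg ℓ, y ^ 2 = gf ℓ A B :=
  IsAlgClosed.exists_pow_nat_eq _ (by norm_num)

/-- The generic ordinate: a chosen square root of `f(x)` in `Lg`. -/
noncomputable def gy : Lg ℓ := (exists_gy ℓ A B).choose

lemma gy_sq : gy ℓ A B ^ 2 = gf ℓ A B := (exists_gy ℓ A B).choose_spec

open Classical in
/-- The generic point `(x, y)` (defined to be `0` if `(x, y)` were singular; it never is when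
`4A³ + 27B² ≠ 0`, see `pgen_eq`). -/
noncomputable def pgen : ((sw ℓ A B)⁄(Lg ℓ)).Point :=
  if h : ((sw ℓ A B)⁄(Lg ℓ)).Nonsingular (gx ℓ) (gy ℓ A B) then Point.some _ _ h else 0

/-- The set of `k(x)`-points of the twist: `O` and the points `(X, Y·y)` with `X, Y ∈ k(x)`. -/
def genSet : Set ((sw ℓ A B)⁄(Lg ℓ)).Point :=
  {P | P = 0 ∨ ∃ (X Y : Kx ℓ)
      (h : ((sw ℓ A B)⁄(Lg ℓ)).Nonsingular (algebraMap (Kx ℓ) (Lg ℓ) X)
        (algebraMap (Kx ℓ) (Lg ℓ) Y * gy ℓ A B)), P = Point.some _ _ h}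

/-- Degree of a rational function as a map `ℙ¹ → ℙ¹`. -/
noncomputable def rdeg (X : Kx ℓ) : ℕ := max X.num.natDegree X.denom.natDegree

/-- The degree of the abscissa of a point of `genSet` (`0` for `O` and for points outside). -/
noncomputable def xdeg (P : ((sw ℓ A B)⁄(Lg ℓ)).Point) : ℕ :=
  sInf {n | ∃ (X Y : Kx ℓ)
      (h : ((sw ℓ A B)⁄(Lg ℓ)).Nonsingular (algebraMap (Kx ℓ) (Lg ℓ) X)
        (algebraMap (Kx ℓ) (Lg ℓ) Y * gy ℓ A B)), P = Point.some _ _ h ∧ n = rdeg ℓ X}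

end Fermat.Agent.S52.Frob
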